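import Mathlib

/-!
# Helper for S57: depth drops by at most one modulo a regular element

Uses the Rees theorem from Mathlib.
-/

set_option autoImplicit false

open RingTheory.Sequence IsLocalRing Pointwise CategoryTheory Abelian

namespace Fermat.Agent.S57Aux

universe u

theorem maximalIdeal_smul_top_lt_top
    {A : Type u} [CommRing A] [IsLocalRing A]
    (N : Type u) [AddCommGroup N] [Module A N] [Module.Finite A N] [Nontrivial N] :
    maximalIdeal A • (⊤ : Submodule A N) < ⊤ :=
  (Submodule.top_ne_ideal_smul_of_le_jacobson_annihilator (maximalIdeal_le_jacobson _)).symm.lt_top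

/-- If `N` admits a weakly regular sequence of length `n + 1` in the maximal ideal and `x` is any
`N`-regular element of the maximal ideal, then `N ⧸ xN` admits a weakly regular sequence of length
`n` in the maximal ideal. -/
theorem exists_isWeaklyRegular_quotSMulTop
    {A : Type u} [CommRing A] [IsNoetherianRing A] [IsLocalRing A]
    {N : Type u} [AddCommGroup N] [Module A N] [Module.Finite A N] [Nontrivial N]
    (n : ℕ) (rs : List A) (hlen : rs.length = n + 1) (hmem : ∀ r ∈ rs, r ∈ maximalIdeal A)
    (hreg : IsWeaklyRegular N rs) (x : A) (hx : x ∈ maximalIdeal A) (hxreg : IsSMulRegular N x) :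
    ∃ rs' : List A, rs'.length = n ∧ (∀ r ∈ rs', r ∈ maximalIdeal A) ∧
      IsWeaklyRegular (QuotSMulTop x N) rs' := by
  let M : ModuleCat.{u} A := ModuleCat.of A N
  have hM : Module.Finite A M := ‹Module.Finite A N›
  have hMn : Nontrivial M := ‹Nontrivial N›
  have hlt : maximalIdeal A • (⊤ : Submodule A M) < ⊤ := maximalIdeal_smul_top_lt_top N
  have tfae1 := ModuleCat.exists_isRegular_tfae (maximalIdeal A) (n + 1) M hlt
  have hreg' : IsRegular M rs := IsRegular.of_isWeaklyRegular_of_mem_maximalIdeal N hmem hreg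
  have h_ext : ∀ i < n + 1,
      Subsingleton (Ext (ModuleCat.of A (Shrink.{u} (A ⧸ maximalIdeal A))) M i) :=
    (tfae1.out 3 1 rfl rfl).mp ⟨rs, hlen, hmem, hreg'⟩
  have hxM : IsSMulRegular M x := hxreg
  have h_ext' : ∀ i < n,
      Subsingleton (Ext (ModuleCat.of A (Shrink.{u} (A ⧸ maximalIdeal A)))
        (ModuleCat.of A (QuotSMulTop x M)) i) := by
    intro i hi
    have zero1 := AddCommGrpCat.isZero_of_iff_subsingleton.mpr (h_ext i (by omega))
    have zero2 := AddCommGrpCat.isZero_of_iff_subsingleton.mpr (h_ext (i + 1) (by omega))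
    exact AddCommGrpCat.subsingleton_of_isZero <| ShortComplex.Exact.isZero_of_both_zeros
      ((Ext.covariant_sequence_exact₃' (ModuleCat.of A (Shrink.{u} (A ⧸ maximalIdeal A)))
        hxM.smulShortComplex_shortExact) i (i + 1) rfl)
      (zero1.eq_zero_of_src _) (zero2.eq_zero_of_tgt _)
  haveI : Nontrivial (QuotSMulTop x N) := nontrivial_quotSMulTop_of_mem_maximalIdeal N hx
  have hlt' : maximalIdeal A • (⊤ : Submodule A (QuotSMulTop x N)) < ⊤ :=
    maximalIdeal_smul_top_lt_top (QuotSMulTop x N)
  have tfae2 := ModuleCat.exists_isRegular_tfae (maximalIdeal A) n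
    (ModuleCat.of A (QuotSMulTop x N)) hlt'
  obtain ⟨rs', hlen', hmem', hreg''⟩ := (tfae2.out 1 3 rfl rfl).mp h_ext'
  exact ⟨rs', hlen', hmem', hreg''.toIsWeaklyRegular⟩

end Fermat.Agent.S57Aux
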