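import Mathlib

/-!
# Helper for S57: a dimension bound for annihilators of elements of modules of positive depth

If a finitely generated module `N` over a Noetherian local ring `A` admits a weakly regular sequence
of length `n` inside the maximal ideal and `J` is an ideal killing a nonzero element of `N`,
then `n ≤ dim (A ⧸ J)`.
-/

set_option autoImplicit false

open RingTheory.Sequence IsLocalRing Pointwise

namespace Fermat.Agent.S57Aux

universe u v

/-- If `y` is `N`-regular, lies in the maximal ideal, and `P` is an ideal killing some nonzero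
element of the finitely generated module `N`, then some element killed by `P` has nonzero image in
`N ⧸ yN`. -/
theorem exists_killed_not_mem_smul_top
    {A : Type u} [CommRing A] [IsNoetherianRing A] [IsLocalRing A]
    {N : Type v} [AddCommGroup N] [Module A N] [Module.Finite A N]
    (y : A) (hy : y ∈ maximalIdeal A) (hreg : IsSMulRegular N y)
    (P : Ideal A) (m : N) (hm : m ≠ 0) (hPm : ∀ a ∈ P, a • m = 0) :
    ∃ u : N, (∀ a ∈ P, a • u = 0) ∧ u ∉ (y • (⊤ : Submodule A N)) := by
  by_contra hcon
  have hcon : ∀ u : N, (∀ a ∈ P, a • u = 0) → u ∈ (y • (⊤ : Submodule A N)) := by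
    intro u hu
    by_contra hu'
    exact hcon ⟨u, hu, hu'⟩
  -- the submodule of elements killed by `P`
  let U : Submodule A N :=
    { carrier := {x | ∀ a ∈ P, a • x = 0}
      add_mem' := by
        intro x x' hx hx' a ha
        rw [smul_add, hx a ha, hx' a ha, add_zero]
      zero_mem' := by
        intro a _
        exact smul_zero a
      smul_mem' := by
        intro c x hx a ha
        rw [smul_comm, hx a ha, smul_zero] }
  have hmU : m ∈ U := hPm
  have hUle : U ≤ (Ideal.span {y}) • U := by
    intro u hu
    have hu' : u ∈ y • (⊤ : Submodule A N) := hcon u hu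
    obtain ⟨x, -, hx⟩ := (Submodule.mem_smul_pointwise_iff_exists _ _ _).mp hu'
    have hxU : x ∈ U := by
      intro a ha
      apply hreg
      show y • (a • x) = y • 0
      rw [smul_zero, smul_comm, hx]
      exact hu a ha
    rw [Submodule.ideal_span_singleton_smul]
    exact (Submodule.mem_smul_pointwise_iff_exists _ _ _).mpr ⟨x, hxU, hx⟩
  have hfg : U.FG := IsNoetherian.noetherian U
  have hjac : Ideal.span {y} ≤ (⊥ : Ideal A).jacobson := by
    rw [Ideal.span_singleton_le_iff_mem]
    exact maximalIdeal_le_jacobson _ hy
  have hbot : U = ⊥ := Submodule.eq_bot_of_le_smul_of_le_jacobson_bot _ U hfg hUle hjac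
  rw [hbot] at hmU
  exact hm ((Submodule.mem_bot A).mp hmU)

/-- **Dimension bound.** If `N` has a weakly regular sequence of length `n` in the maximal ideal,
and the ideal `J` kills a nonzero element of `N`, then `n ≤ dim A ⧸ J`. -/
theorem natCast_le_ringKrullDim_quotient_of_isWeaklyRegular
    {A : Type u} [CommRing A] [IsNoetherianRing A] [IsLocalRing A] (n : ℕ) :
    ∀ (N : Type v) [AddCommGroup N] [Module A N] [Module.Finite A N]
      (rs : List A), rs.length = n → (∀ r ∈ rs, r ∈ maximalIdeal A) → IsWeaklyRegular N rs →
      ∀ (J : Ideal A) (m : N), m ≠ 0 → (∀ a ∈ J, a • m = 0) →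
        (n : WithBot ℕ∞) ≤ ringKrullDim (A ⧸ J) := by
  induction n with
  | zero =>
    intro N _ _ _ rs _ _ _ J m hm hJ
    have hJtop : J ≠ ⊤ := by
      rintro rfl
      apply hm
      simpa using hJ 1 trivial
    haveI : Nontrivial (A ⧸ J) := Ideal.Quotient.nontrivial_iff.mpr hJtop
    simpa using ringKrullDim_nonneg_of_nontrivial (R := A ⧸ J)
  | succ n ih =>
    intro N _ _ _ rs hlen hmem hreg J m hm hJ
    match rs, hlen, hmem, hreg with
    | [], hlen, _, _ => simp at hlen
    | y :: rs', hlen, hmem, hreg =>
      simp only [List.length_cons, Nat.add_right_cancel_iff] at hlen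
      simp only [List.mem_cons, forall_eq_or_imp] at hmem
      rw [isWeaklyRegular_cons_iff] at hreg
      obtain ⟨hy, hmem'⟩ := hmem
      obtain ⟨hyreg, hreg'⟩ := hreg
      -- an associated prime containing the annihilator of `m`
      obtain ⟨P, hPass, hPle⟩ := exists_le_isAssociatedPrime_of_isNoetherianRing A m hm
      have hJP : J ≤ P := by
        intro a ha
        apply hPle
        rw [Submodule.mem_colon]
        intro s hs
        rw [Set.mem_singleton_iff] at hs
        rw [hs, Submodule.mem_bot]
        exact hJ a ha
      haveI hPprime : P.IsPrime := hPass.isPrime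
      obtain ⟨-, m', hm'⟩ := isAssociatedPrime_iff.mp hPass
      have hPm' : ∀ a ∈ P, a • m' = 0 := by
        intro a ha
        rw [hm', Submodule.mem_colon] at ha
        exact (Submodule.mem_bot A).mp (ha m' rfl)
      have hm'0 : m' ≠ 0 := by
        rintro rfl
        apply hPprime.ne_top
        rw [hm', Ideal.eq_top_iff_one, Submodule.mem_colon]
        intro s hs
        rw [Set.mem_singleton_iff] at hs
        rw [hs, smul_zero]
        exact Submodule.zero_mem _
      have hyP : y ∉ P := by
        intro hyP
        apply hm'0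
        apply hyreg
        show y • m' = y • 0
        rw [smul_zero]
        exact hPm' y hyP
      -- an element killed by `P` with nonzero image modulo `y`
      obtain ⟨u, huP, hu⟩ := exists_killed_not_mem_smul_top y hy hyreg P m' hm'0 hPm'
      let ubar : QuotSMulTop y N := Submodule.Quotient.mk u
      have hubar : ubar ≠ 0 := by
        intro h
        exact hu ((Submodule.Quotient.mk_eq_zero _).mp h)
      have hkill : ∀ a ∈ P ⊔ Ideal.span {y}, a • ubar = 0 := by
        intro a ha
        obtain ⟨b, hb, c, hc, rfl⟩ := Submodule.mem_sup.mp ha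
        obtain ⟨c', rfl⟩ := Ideal.mem_span_singleton'.mp hc
        show (b + c' * y) • (Submodule.Quotient.mk u : QuotSMulTop y N) = 0
        rw [← Submodule.Quotient.mk_smul, Submodule.Quotient.mk_eq_zero, add_smul, huP b hb,
          zero_add, mul_comm, mul_smul]
        exact Submodule.smul_mem_pointwise_smul _ _ _ trivial
      have h1 : (n : WithBot ℕ∞) ≤ ringKrullDim (A ⧸ (P ⊔ Ideal.span {y})) :=
        ih (QuotSMulTop y N) rs' hlen hmem' hreg' (P ⊔ Ideal.span {y}) ubar hubar hkill
      -- dimension drops when killing the nonzero element `y` of the domain `A ⧸ P`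
      have hynz : (Ideal.Quotient.mk P y) ∈ nonZeroDivisors (A ⧸ P) := by
        rw [mem_nonZeroDivisors_iff_ne_zero]
        intro h
        exact hyP (Ideal.Quotient.eq_zero_iff_mem.mp h)
      have h2 := ringKrullDim_quotient_succ_le_of_nonZeroDivisor hynz
      have h3 : ringKrullDim ((A ⧸ P) ⧸ Ideal.span {Ideal.Quotient.mk P y}) =
          ringKrullDim (A ⧸ (P ⊔ Ideal.span {y})) := by
        have hmap : Ideal.map (Ideal.Quotient.mk P) (Ideal.span {y}) =
            Ideal.span {Ideal.Quotient.mk P y} := by
          rw [Ideal.map_span, Set.image_singleton]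
        rw [← hmap]
        exact ringKrullDim_eq_of_ringEquiv (DoubleQuot.quotQuotEquivQuotSup P (Ideal.span {y}))
      have h4 : ringKrullDim (A ⧸ P) ≤ ringKrullDim (A ⧸ J) :=
        ringKrullDim_le_of_surjective (Ideal.Quotient.factor hJP)
          (Ideal.Quotient.factor_surjective hJP)
      rw [h3] at h2
      calc ((n + 1 : ℕ) : WithBot ℕ∞) = (n : WithBot ℕ∞) + 1 := by push_cast; rfl
        _ ≤ ringKrullDim (A ⧸ (P ⊔ Ideal.span {y})) + 1 := by gcongr
        _ ≤ ringKrullDim (A ⧸ P) := h2
        _ ≤ ringKrullDim (A ⧸ J) := h4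

end Fermat.Agent.S57Aux
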