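import Mathlib
import Fermat.Agent.S57.DimBound
import Fermat.Agent.S57.DepthDrop

/-!
# Helper for S57: maximal Cohen–Macaulay modules over a regular local ring are free

Let `A` be a Noetherian local ring whose maximal ideal is generated by `n` elements and let `N` be a
finitely generated `A`-module admitting a weakly regular sequence of length `n` inside the maximal
ideal.  Then `N` is free.
-/

set_option autoImplicit false

open RingTheory.Sequence IsLocalRing Pointwise

namespace Fermat.Agent.S57Aux

universe u

/-- Krull dimension bound for a local Noetherian ring whose maximal ideal is the span of a list. -/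
theorem ringKrullDim_le_length_of_maximalIdeal_eq_ofList
    {A : Type u} [CommRing A] [IsNoetherianRing A] [IsLocalRing A]
    (ts : List A) (hmax : maximalIdeal A = Ideal.ofList ts) :
    ringKrullDim A ≤ (ts.length : WithBot ℕ∞) := by
  refine (ringKrullDim_le_spanFinrank_maximalIdeal A).trans ?_
  have hfin : {r | r ∈ ts}.Finite := List.finite_toSet ts
  have h1 : (maximalIdeal A).spanFinrank ≤ {r | r ∈ ts}.ncard := by
    rw [hmax]
    exact Submodule.spanFinrank_span_le_ncard_of_finite hfin
  have h2 : {r | r ∈ ts}.ncard ≤ ts.length := by
    classical
    have : {r | r ∈ ts} = (ts.toFinset : Set A) := by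
      ext r
      simp
    rw [this, Set.ncard_coe_finset]
    exact List.toFinset_card_le ts
  exact_mod_cast h1.trans h2

/-- The quotient of a local ring by an element of the maximal ideal has maximal ideal spanned by the
images of the remaining generators. -/
theorem maximalIdeal_quotient_span_singleton_eq_ofList
    {A : Type u} [CommRing A] [IsLocalRing A]
    (t : A) (ts : List A) (hmax : maximalIdeal A = Ideal.ofList (t :: ts))
    [IsLocalRing (A ⧸ Ideal.span {t})] :
    maximalIdeal (A ⧸ Ideal.span {t}) =
      Ideal.ofList (ts.map (Ideal.Quotient.mk (Ideal.span {t}))) := by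
  rw [← map_maximalIdeal_of_surjective (Ideal.Quotient.mk (Ideal.span {t}))
    Ideal.Quotient.mk_surjective, hmax, Ideal.map_ofList, List.map_cons]
  have h0 : Ideal.Quotient.mk (Ideal.span {t}) t = 0 :=
    Ideal.Quotient.eq_zero_iff_mem.mpr (Ideal.mem_span_singleton_self t)
  rw [h0]
  apply le_antisymm
  · rw [Ideal.ofList, Ideal.span_le]
    intro x hx
    rcases List.mem_cons.mp hx with rfl | hx
    · exact Ideal.zero_mem _
    · exact Ideal.subset_span hx
  · apply Ideal.span_mono
    intro x hx
    exact List.mem_cons_of_mem _ hx

/-- **Maximal depth implies free** over a local ring whose maximal ideal has `n` generators. -/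
theorem free_of_isWeaklyRegular_of_maximalIdeal_eq_ofList (n : ℕ) :
    ∀ (A : Type u) [CommRing A] [IsNoetherianRing A] [IsLocalRing A]
      (N : Type u) [AddCommGroup N] [Module A N] [Module.Finite A N]
      (ts : List A), ts.length = n → maximalIdeal A = Ideal.ofList ts →
      ∀ (rs : List A), rs.length = n → (∀ r ∈ rs, r ∈ maximalIdeal A) → IsWeaklyRegular N rs →
      Module.Free A N := by
  induction n with
  | zero =>
    intro A _ _ _ N _ _ _ ts hts hmax rs _ _ _
    have hts' : ts = [] := List.length_eq_zero_iff.mp hts
    subst hts'
    have hbot : maximalIdeal A = ⊥ := by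
      rw [hmax]
      simp [Ideal.ofList]
    have hf : IsField A := (IsLocalRing.isField_iff_maximalIdeal_eq).mpr hbot
    letI := hf.toField
    exact Module.Free.of_divisionRing A N
  | succ n ih =>
    intro A _ _ _ N _ _ _ ts hts hmax rs hrs hmem hreg
    match ts, hts, hmax with
    | [], hts, _ => simp at hts
    | t :: ts', hts, hmax =>
      simp only [List.length_cons, Nat.add_right_cancel_iff] at hts
      by_cases hN : Subsingleton N
      · exact Module.Free.of_subsingleton A N
      rw [not_subsingleton_iff_nontrivial] at hN
      have ht : t ∈ maximalIdeal A := by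
        rw [hmax]
        exact Ideal.subset_span List.mem_cons_self
      have htop : Ideal.span {t} ≠ ⊤ := by
        intro h
        have : maximalIdeal A = ⊤ :=
          top_le_iff.mp (h ▸ (Ideal.span_singleton_le_iff_mem _).mpr ht)
        exact (maximalIdeal.isMaximal A).ne_top this
      haveI : Nontrivial (A ⧸ Ideal.span {t}) := Ideal.Quotient.nontrivial_iff.mpr htop
      haveI : IsLocalRing (A ⧸ Ideal.span {t}) :=
        IsLocalRing.of_surjective' (Ideal.Quotient.mk (Ideal.span {t}))
          Ideal.Quotient.mk_surjective
      have hmax' := maximalIdeal_quotient_span_singleton_eq_ofList t ts' hmax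
      -- `t` is `N`-regular
      have htreg : IsSMulRegular N t := by
        by_contra hcon
        have hninj : ¬ Function.Injective (fun x : N => t • x) := hcon
        rw [Function.Injective] at hninj
        push Not at hninj
        obtain ⟨a, b, hab, hne⟩ := hninj
        have hm : a - b ≠ 0 := sub_ne_zero.mpr hne
        have hkill : ∀ c ∈ Ideal.span {t}, c • (a - b) = 0 := by
          intro c hc
          obtain ⟨c', rfl⟩ := Ideal.mem_span_singleton'.mp hc
          have hab' : t • a = t • b := hab
          rw [mul_smul, smul_sub, hab', sub_self, smul_zero]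
        have h1 := natCast_le_ringKrullDim_quotient_of_isWeaklyRegular (n + 1) N rs hrs hmem hreg
          (Ideal.span {t}) (a - b) hm hkill
        have h2 := ringKrullDim_le_length_of_maximalIdeal_eq_ofList _ hmax'
        rw [List.length_map, hts] at h2
        have h3 := h1.trans h2
        have h4 : (n + 1 : ℕ) ≤ n := by exact_mod_cast h3
        omega
      -- depth of the quotient
      obtain ⟨rs', hlen', hmem', hreg'⟩ :=
        exists_isWeaklyRegular_quotSMulTop n rs hrs hmem hreg t ht htreg
      haveI : Module.Finite (A ⧸ Ideal.span {t}) (QuotSMulTop t N) :=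
        Module.Finite.of_restrictScalars_finite A _ _
      have hfree : Module.Free (A ⧸ Ideal.span {t}) (QuotSMulTop t N) := by
        refine ih (A ⧸ Ideal.span {t}) (QuotSMulTop t N)
          (ts'.map (Ideal.Quotient.mk (Ideal.span {t}))) (by rw [List.length_map, hts]) hmax'
          (rs'.map (algebraMap A (A ⧸ Ideal.span {t}))) (by rw [List.length_map, hlen']) ?_ ?_
        · intro r hr
          obtain ⟨r', hr', rfl⟩ := List.mem_map.mp hr
          rw [← map_maximalIdeal_of_surjective (Ideal.Quotient.mk (Ideal.span {t}))
            Ideal.Quotient.mk_surjective]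
          exact Ideal.mem_map_of_mem _ (hmem' r' hr')
        · exact (isWeaklyRegular_map_algebraMap_iff (A ⧸ Ideal.span {t}) (QuotSMulTop t N)
            rs').mpr hreg'
      haveI : Module.FinitePresentation A N := Module.finitePresentation_of_finite A N
      exact (Module.free_quotSMulTop_iff_free A N (maximalIdeal_le_jacobson _ ht) htreg).mp hfree

end Fermat.Agent.S57Aux
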